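import Fermat.Agent.S19.Basic
import Fermat.Agent.S19.Formal.Front
import Fermat.Agent.S54.Frob

set_option autoImplicit false

/-!
# S19 / Top : from the chapter statements to the frozen statement
-/

namespace Fermat.Agent.S19

open ModularCurve
open Fermat.Agent.S24 (Kb)
open Fermat.Agent.GES (GQ)

/-- The frozen conclusion of S19 from PAIR, ND and INTEG. -/
theorem top (N : ℕ) [NeZero N] (ℓ : ℕ) [Fact ℓ.Prime] (k : ℕ)
    (hpair : PairStatement N ((ℓ : ℤ) ^ k)) (hnd : NDStatement N ((ℓ : ℤ) ^ k))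
    (hinteg : IntegStatement N ℓ ((ℓ : ℤ) ^ k)) :
    ∃ (H : Type) (_ : CommRing H) (_ : HopfAlgebra (GaloisRep.ratLocalizedAt ℓ) H),
      Module.Finite (GaloisRep.ratLocalizedAt ℓ) H ∧ Module.Flat (GaloisRep.ratLocalizedAt ℓ) H ∧
      Coalgebra.IsCocomm (GaloisRep.ratLocalizedAt ℓ) H ∧
      ∃ e : WithConv (H →ₐ[GaloisRep.ratLocalizedAt ℓ] AlgebraicClosure ℚ) ≃
          ↥(Submodule.torsionBy ℤ (JZero N) ((ℓ : ℤ) ^ k)),
        (∀ f g, e (f * g) = e f + e g) ∧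
        ∀ (σ : AlgebraicClosure ℚ ≃ₐ[ℚ] AlgebraicClosure ℚ)
          (f g : WithConv (H →ₐ[GaloisRep.ratLocalizedAt ℓ] AlgebraicClosure ℚ)),
          (∀ h : H, g h = σ (f h)) → ((e g : JZero N)) = σ • (e f : JZero N) := by
  obtain ⟨e, hW, hne, hmul, heq⟩ := hpair
  obtain ⟨A, hA⟩ := Fermat.Agent.S54.exists_liesOverPrime (Fact.out : ℓ.Prime)
  have hA' : ((ℓ : Kb))⁻¹ ∉ A := by
    intro h
    have h1 : (ℓ : Kb) ∈ A.nonunits := hA
    have h2 : (ℓ : Kb) ≠ 0 := Nat.cast_ne_zero.2 (Fact.out : ℓ.Prime).ne_zero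
    have h3 := (ValuationSubring.mem_nonunits_iff_exists_mem_maximalIdeal).1 h1
    obtain ⟨ha, hm⟩ := h3
    apply (IsLocalRing.mem_maximalIdeal _).1 hm
    exact IsUnit.of_mul_eq_one (⟨_, h⟩ : A) (Subtype.ext (mul_inv_cancel₀ h2))
  have hfin : Finite (TM N ((ℓ : ℤ) ^ k)) :=
    finite_TM N (pow_ne_zero _ (Int.natCast_ne_zero.2 (Fact.out : ℓ.Prime).ne_zero))
  have hbij : ∀ σ : GQ, Function.Bijective (fun y : TM N ((ℓ : ℤ) ^ k) => σ • y) :=
    fun σ => MulAction.bijective σ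
  have hinj : ∀ x x' : TM N ((ℓ : ℤ) ^ k), (∀ y, e x y = e x' y) → x = x' := by
    intro x x' h
    have h1 : x - x' = 0 := by
      apply hnd e hW
      intro y
      have h2 : e (x - x' + x') y = e (x - x') y * e x' y := hmul _ _ _
      rw [sub_add_cancel, h y] at h2
      exact (mul_right_cancel₀ (hne x' y) (by rw [one_mul]; exact h2)).symm
    exact sub_eq_zero.1 h1
  obtain ⟨H, i1, i2, h1, h2, h3, E, hE1, hE2⟩ :=
    Formal.front ℓ (M := TM N ((ℓ : ℤ) ^ k)) (Y := TM N ((ℓ : ℤ) ^ k))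
      (fun σ x => σ • x) (fun σ y => σ • y) hbij e hmul heq hinj A hA'
      (fun x => hinteg e hW A hA x)
  exact ⟨H, i1, i2, h1, h2, h3, E, hE1, fun σ f g h => congrArg Subtype.val (hE2 σ f g h)⟩

end Fermat.Agent.S19
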