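import Fermat.Agent.S19.Defs

set_option autoImplicit false

/-!
# S19 / Basic : shared elementary facts (`oo`, `Ep`, `Ed`, `SE`, `TM`, `Close`)
-/

noncomputable section

namespace Fermat.Agent.S19

open AlgebraicCurve ModularCurve
open Fermat.Agent.S24 (Kb FN IsFF1)
open Fermat.Agent.GES (GQ galF)
open Fermat.Agent.S17.WMW (aG)
open Fermat.Agent.S18 (IntA SmallA)
open Fermat.Agent.DIV (valAt valOpt)
open Fermat.Agent.RL (pt Eff LSpace)

variable (N : ℕ) [NeZero N]

theorem smul_oo (τ : GQ) : aG N τ • oo N = oo N := by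
  apply Fermat.Agent.S24.place_ext_of_le
  intro f hf
  rw [SemilinearAut.smul_toValuationSubring,
    ValuationSubring.mem_pointwise_smul_iff_inv_smul_mem, mem_oo] at hf
  rw [mem_oo]
  have h1 : ((aG N τ)⁻¹ • f : FN N) = galF N τ⁻¹ f := by
    rw [← map_inv]
    rfl
  rw [h1] at hf
  rcases hf with hf | hf
  · left
    exact (map_eq_zero _).1 hf
  · right
    have h2 : (galF N τ⁻¹ f).1.order = f.1.order := by
      rw [Fermat.Agent.GES.coe_galF]
      exact Fermat.Agent.S18.KPack.order_coeffMap _ _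
    rw [← h2]
    exact hf

theorem Ep_smul (σ : GQ) (y : JZero N) : Ep N (σ • y) = aG N σ • Ep N y := by
  unfold Ep
  rw [← Fermat.Agent.RL.red_smul (hFF N) (aG N σ) (smul_oo N σ) y]
  rfl

theorem eff_Ep (y : JZero N) : Eff (Ep N y) := (Fermat.Agent.RL.isRed_red (hFF N) (oo N) y).eff

theorem Ep_oo (y : JZero N) : Ep N y (oo N) = 0 := (Fermat.Agent.RL.isRed_red (hFF N) (oo N) y).base

theorem degree_Ep_smul (σ : GQ) (y : JZero N) :
    Divisor.degree (Ep N (σ • y)) = Divisor.degree (Ep N y) := by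
  rw [Ep_smul, SemilinearAut.degree_smul]

theorem Ed_smul (σ : GQ) (y : JZero N) : Ed N (σ • y) = aG N σ • Ed N y := by
  unfold Ed
  rw [degree_Ep_smul, Ep_smul, smul_sub, smul_comm, SemilinearAut.smul_single, smul_oo]

theorem Ed_mem_degZero (y : JZero N) : Ed N y ∈ Divisor.degZero (K := Kb) (F := FN N) :=
  Fermat.Agent.RL.sub_degree_smul_mem_degZero (hFF N) (oo N) (Ep N y)

theorem mk_Ed (y : JZero N) : Pic0.mk ⟨Ed N y, Ed_mem_degZero N y⟩ = y :=
  Fermat.Agent.RL.clsOf_red (hFF N) (oo N) y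

theorem Ed_apply_of_ne (y : JZero N) {v : Place Kb (FN N)} (hv : v ≠ oo N) :
    Ed N y v = Ep N y v := by
  classical
  unfold Ed
  rw [Finsupp.sub_apply, Finsupp.smul_apply, Finsupp.single_apply, if_neg (Ne.symm hv), smul_zero,
    sub_zero]

theorem Ed_apply_oo (y : JZero N) : Ed N y (oo N) = - Divisor.degree (Ep N y) := by
  classical
  unfold Ed
  rw [Finsupp.sub_apply, Finsupp.smul_apply, Finsupp.single_apply, if_pos rfl, Ep_oo]
  simp

/-- a degree-zero divisor whose class is killed by `m`. -/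
theorem exists_isDiv_of_smul_eq_zero (m : ℤ) (D : Divisor.degZero (K := Kb) (F := FN N))
    (h : m • Pic0.mk D = 0) : ∃ f : FN N, IsDiv f (m • (D : Divisor Kb (FN N))) := by
  have h1 : Pic0.mk (m • D) = 0 := h
  unfold Pic0.mk at h1
  rw [QuotientAddGroup.eq_zero_iff, AddSubgroup.mem_addSubgroupOf] at h1
  obtain ⟨f, hf0, hf⟩ := h1
  exact ⟨f, hf0, fun v => (hf v).symm⟩

theorem exists_isDiv_Ed (m : ℤ) (y : TM N m) : ∃ φ : FN N, IsDiv φ (m • Ed N y.1) := by
  have h := exists_isDiv_of_smul_eq_zero N m ⟨Ed N y.1, Ed_mem_degZero N y.1⟩ (by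
    rw [mk_Ed]; exact (Submodule.mem_torsionBy_iff _ _).1 y.2)
  exact h

theorem finite_TM {m : ℤ} (hm : m ≠ 0) : Finite (TM N m) := by
  have : NeZero m.natAbs := ⟨Int.natAbs_ne_zero.2 hm⟩
  have h := Fermat.Agent.S37.BR.finite_tors N m.natAbs
  have h2 : {x : JZero N | m • x = 0} ⊆ {x : JZero N | m.natAbs • x = 0} := by
    intro x hx
    have hx' : m • x = 0 := hx
    show m.natAbs • x = 0
    rw [← natCast_zsmul]
    rcases Int.natAbs_eq m with h' | h'
    · rw [← h']; exact hx'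
    · have : ((m.natAbs : ℤ)) = -m := by omega
      rw [this, neg_smul, hx', neg_zero]
  have h3 := h.subset h2
  exact Set.finite_coe_iff.2 (h3.subset fun x hx => (Submodule.mem_torsionBy_iff _ _).1 hx)

theorem smooth_TM (m : ℤ) : Smooth (TM N m) := by
  intro y
  obtain ⟨L, hL, h⟩ := Fermat.Agent.S37.exists_level_J N y.1
  exact ⟨L, hL, fun σ hσ => Subtype.ext (h σ hσ)⟩

theorem SE_finite {m : ℤ} (hm : m ≠ 0) : (SE N m).Finite := by
  have := finite_TM N hm
  have : SE N m = {oo N} ∪ ⋃ y : TM N m, ((Ep N y.1).support : Set (Place Kb (FN N))) := by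
    ext v
    simp [SE]
  rw [this]
  exact (Set.finite_singleton _).union (Set.finite_iUnion fun y => Finset.finite_toSet _)

theorem smul_mem_SE {m : ℤ} (σ : GQ) {v : Place Kb (FN N)} (hv : v ∈ SE N m) :
    aG N σ • v ∈ SE N m := by
  rcases hv with rfl | ⟨y, hy⟩
  · left; exact smul_oo N σ
  · right
    refine ⟨σ • y, ?_⟩
    rw [coe_smul_TM, Ep_smul, SemilinearAut.divisor_smul_apply_smul]
    exact hy

/-! ### `Close` -/

theorem Close.refl (A : ValuationSubring Kb) (a : Option Kb) : Close A a a := by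
  cases a with
  | none => trivial
  | some a =>
    by_cases h : a ∈ A
    · right
      refine ⟨h, h, ?_⟩
      rw [sub_self]
      exact Fermat.Agent.S18.zero_mem_nonunits A
    · left; exact ⟨h, h⟩

theorem Close.symm {A : ValuationSubring Kb} {a b : Option Kb} (h : Close A a b) : Close A b a := by
  cases a <;> cases b
  · trivial
  · exact h
  · exact h
  · rcases h with ⟨h1, h2⟩ | ⟨h1, h2, h3⟩
    · left; exact ⟨h2, h1⟩
    · right
      refine ⟨h2, h1, ?_⟩
      have := Fermat.Agent.S18.neg_mem_nonunits A h3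
      rwa [neg_sub] at this

theorem coe_jF : ((Fermat.Agent.S24.jF N : FN N) : LaurentSeries Kb) = jqModC Kb :=
  Fermat.Agent.S24.degree_Jser_one

theorem jv_oo : jv N (oo N) = none := by
  unfold jv
  rw [Fermat.Agent.DIV.valOpt_eq_none_iff]
  obtain ⟨c, hc, h⟩ := exists_oo_ord N
  have hj : Fermat.Agent.S24.jF N ≠ 0 := by
    intro h0
    exact Fermat.Agent.S24.transcendental_jF N (h0 ▸ isAlgebraic_zero)
  have h1 := h _ hj
  have h2 : (Fermat.Agent.S24.jF N).1.order = -1 := by
    show (Fermat.Agent.S24.Jser 1).order = -1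
    rw [Fermat.Agent.S24.degree_Jser_one]
    exact Fermat.Agent.S18.KPack.order_jqModC Kb
  rw [h2] at h1
  by_contra hcon
  rw [not_lt] at hcon
  nlinarith

end Fermat.Agent.S19
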