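import Fermat.Agent.S37.Orb
import Fermat.Agent.S37.BR.Fin
import Fermat.Agent.DIV.Main
import Fermat.Prelude.Def_GaloisRep_Flat

set_option autoImplicit false

/-!
# S19 : common definitions and the statements of all chapters

`M = J₀(N)[m]`, `m = ℓ ^ k`, `R = ℤ_(ℓ)`.  See the board (helper10, "S19 MOONSHOT") for the blueprint.

* FORMAL : `Formal.front`  (Mathlib only; helper29)
* WR     : `WRStatement`      (general function fields)
* PAIR   : `PairStatement N m`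
* ND     : `NDStatement N m`
* RED    : `L1Statement N ℓ`, `QIntStatement N ℓ`
* MOVE   : `L3Statement N ℓ`
* LAT    : `LatStatement N ℓ`, `NormStatement`, `PchStatement`
* INTEG  : `IntegStatement N ℓ m`
-/

noncomputable section

namespace Fermat.Agent.S19

open AlgebraicCurve ModularCurve
open Fermat.Agent.S24 (Kb FN IsFF1)
open Fermat.Agent.GES (GQ galF)
open Fermat.Agent.S17.WMW (aG)
open Fermat.Agent.S18 (IntA SmallA)
open Fermat.Agent.DIV (valAt valOpt)

/-- `ℤ_(ℓ)`. -/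
abbrev Rl (ℓ : ℕ) : Subring ℚ := GaloisRep.ratLocalizedAt ℓ

/-! ### FORMAL  (the formal theorem itself is `Formal.front`, chapter of helper29) -/

/-- a Galois-equivariant function with values in `A`  (then the values are integral over `ℤ_(ℓ)`). -/
def IsEqA (A : ValuationSubring Kb) {Y : Type} [MulAction GQ Y] (φ : Y → Kb) : Prop :=
  (∀ (σ : GQ) (y : Y), φ (σ • y) = σ (φ y)) ∧ ∀ y, φ y ∈ A

/-- the `A`-span of the maximal order of `Maps_G(Y, ℚ̄)`. -/
def OA (A : ValuationSubring Kb) (Y : Type) [MulAction GQ Y] : Submodule A (Y → Kb) :=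
  Submodule.span A {φ | IsEqA A φ}

/-- the action of `G_ℚ` on `Y` is smooth. -/
def Smooth (Y : Type) [MulAction GQ Y] : Prop :=
  ∀ y : Y, ∃ L : IntermediateField ℚ Kb, FiniteDimensional ℚ L ∧
    ∀ σ : GQ, σ ∈ L.fixingSubgroup → σ • y = y

/-! ### evaluation of functions on divisors, Weil reciprocity -/

section General

variable {K F : Type} [Field K] [Field F] [Algebra K F] [IsAlgClosed K]

/-- `f(D) = ∏_v f(v) ^ D(v)`. -/
def evD (h : IsFF1 K F) (D : Divisor K F) (f : F) : K := D.prod fun v n => valAt h v f ^ n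

omit [IsAlgClosed K] in
/-- `div f = D`. -/
def IsDiv (f : F) (D : Divisor K F) : Prop := f ≠ 0 ∧ ∀ v : Place K F, v.ord f = D v

end General

/-- **WR** : Weil reciprocity. -/
def WRStatement : Prop :=
  ∀ (K F : Type) [Field K] [Field F] [Algebra K F] [IsAlgClosed K] [CharZero K] (h : IsFF1 K F)
    (f g : F) (Df Dg : Divisor K F), IsDiv f Df → IsDiv g Dg → (∀ v, Df v = 0 ∨ Dg v = 0) →
    evD h Dg f = evD h Df g

/-! ### the curve -/

variable (N : ℕ) [NeZero N]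

/-- `F_N / ℚ̄` is a function field. -/
abbrev hFF : IsFF1 Kb (FN N) := Fermat.Agent.S24.isFF1_FN N

/-- the cusp `∞`. -/
def oo : Place Kb (FN N) := (Fermat.Agent.S18.KPack.isVal_order_FN N).exists_place.choose

theorem exists_oo_ord : ∃ c : ℤ, 0 < c ∧ ∀ f : FN N, f ≠ 0 → f.1.order = c * (oo N).ord f := by
  obtain ⟨c, hc, h, -⟩ := (Fermat.Agent.S18.KPack.isVal_order_FN N).exists_place.choose_spec
  exact ⟨c, hc, h⟩

theorem mem_oo (f : FN N) : f ∈ (oo N).toValuationSubring ↔ f = 0 ∨ 0 ≤ f.1.order := by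
  obtain ⟨c, -, -, h⟩ := (Fermat.Agent.S18.KPack.isVal_order_FN N).exists_place.choose_spec
  have : (oo N).toValuationSubring = _ := h
  rw [this]
  rfl

/-- the torsion module. -/
abbrev TM (m : ℤ) : Type := ↥(Submodule.torsionBy ℤ (JZero N) m)

instance instSMulTM (m : ℤ) : SMul GQ (TM N m) where
  smul σ x := ⟨σ • x.1, by
    have hx : m • x.1 = 0 := (Submodule.mem_torsionBy_iff _ _).1 x.2
    have h2 : m • (σ • x.1) = σ • (m • x.1) :=
      (map_zsmul (DistribMulAction.toAddMonoidHom (JZero N) σ) m x.1).symm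
    exact (Submodule.mem_torsionBy_iff _ _).2 (by
      rw [h2, hx]; exact map_zero (DistribMulAction.toAddMonoidHom (JZero N) σ))⟩

theorem coe_smul_TM (m : ℤ) (σ : GQ) (x : TM N m) : ((σ • x : TM N m) : JZero N) = σ • x.1 := rfl

instance instDMATM (m : ℤ) : DistribMulAction GQ (TM N m) where
  one_smul x := Subtype.ext (one_smul _ _)
  mul_smul σ τ x := Subtype.ext (mul_smul _ _ _)
  smul_zero σ := Subtype.ext (smul_zero _)
  smul_add σ x y := Subtype.ext (smul_add _ _ _)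

/-- the reduced effective divisor of the class `y` (base point `∞`). -/
def Ep (y : JZero N) : Divisor Kb (FN N) := Fermat.Agent.RL.red (hFF N) (oo N) y

/-- the canonical divisor of degree `0` in the class `y`. -/
def Ed (y : JZero N) : Divisor Kb (FN N) :=
  Ep N y - Divisor.degree (Ep N y) • Fermat.Agent.RL.pt (oo N)

/-- the places which occur in some `Ed y`, `y ∈ M`. -/
def SE (m : ℤ) : Set (Place Kb (FN N)) := {v | v = oo N ∨ ∃ y : TM N m, Ep N y.1 v ≠ 0}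

/-- `(D, f)` represents the `m`-torsion class `x`, away from `SE`. -/
def IsRep (m : ℤ) (x : JZero N) (D : Divisor.degZero (K := Kb) (F := FN N)) (f : FN N) : Prop :=
  Pic0.mk D = x ∧ IsDiv f (m • (D : Divisor Kb (FN N))) ∧ ∀ v ∈ SE N m, (D : Divisor Kb (FN N)) v = 0

/-- `e` is given by Weil's formula `e(x,y) = f(E_y) / φ_y(D)`. -/
def IsWeil (m : ℤ) (e : TM N m → TM N m → Kb) : Prop :=
  ∀ (x y : TM N m) (D : Divisor.degZero (K := Kb) (F := FN N)) (f φ : FN N),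
    IsRep N m x.1 D f → IsDiv φ (m • Ed N y.1) →
    e x y * evD (hFF N) (D : Divisor Kb (FN N)) φ = evD (hFF N) (Ed N y.1) f

/-- **PAIR**. -/
def PairStatement (m : ℤ) : Prop :=
  ∃ e : TM N m → TM N m → Kb, IsWeil N m e ∧ (∀ x y, e x y ≠ 0) ∧
    (∀ x x' y, e (x + x') y = e x y * e x' y) ∧ ∀ (σ : GQ) x y, e (σ • x) (σ • y) = σ (e x y)

/-- **ND**. -/
def NDStatement (m : ℤ) : Prop :=
  ∀ e : TM N m → TM N m → Kb, IsWeil N m e → ∀ x, (∀ y, e x y = 1) → x = 0

/-- **INTEG**. -/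
def IntegStatement (ℓ : ℕ) (m : ℤ) : Prop :=
  ∀ e : TM N m → TM N m → Kb, IsWeil N m e → ∀ A : ValuationSubring Kb, A.LiesOverPrime ℓ →
    ∀ x, e x ∈ OA A (TM N m)

/-! ### reduction -/

/-- `a, b ∈ ℙ¹(ℚ̄)` have the same image in `ℙ¹(k_A)`. -/
def Close (A : ValuationSubring Kb) : Option Kb → Option Kb → Prop
  | none, none => True
  | none, some b => b ∉ A
  | some a, none => a ∉ A
  | some a, some b => (a ∉ A ∧ b ∉ A) ∨ (a ∈ A ∧ b ∈ A ∧ a - b ∈ A.nonunits)

/-- the `j`-value of a place. -/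
def jv (v : Place Kb (FN N)) : Option Kb := valOpt (hFF N) v (Fermat.Agent.S24.jF N)

variable {N} in
/-- `u` lies in the Gauss valuation ring at `A`. -/
def GInt (A : ValuationSubring Kb) (u : FN N) : Prop :=
  ∃ a b : FN N, IntA A a.1 ∧ IntA A b.1 ∧ ¬ SmallA A b.1 ∧ u * b = a

/-- **RED (L1)**. -/
def L1Statement (ℓ : ℕ) : Prop :=
  ∀ A : ValuationSubring Kb, A.LiesOverPrime ℓ → ∀ u : FN N, GInt A u → ∀ P : Place Kb (FN N),
    (∀ Z : Place Kb (FN N), Z.ord u < 0 → ¬ Close A (jv N P) (jv N Z)) → valAt (hFF N) P u ∈ A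

/-- **RED (Q-INT)**. -/
def QIntStatement (ℓ : ℕ) : Prop :=
  ∀ A : ValuationSubring Kb, A.LiesOverPrime ℓ → ∀ u : FN N, GInt A u →
    (∀ Z : Place Kb (FN N), Z.ord u < 0 → Z = oo N ∨ ∃ a ∈ A, jv N Z = some a) → IntA A u.1

/-- **MOVE (L3)**. -/
def L3Statement (ℓ : ℕ) : Prop :=
  ∀ A : ValuationSubring Kb, A.LiesOverPrime ℓ → ∀ (T : Finset (Option Kb)) (x : JZero N),
    ∃ D : Divisor.degZero (K := Kb) (F := FN N), Pic0.mk D = x ∧
      ∀ P, (D : Divisor Kb (FN N)) P ≠ 0 → ∀ τ ∈ T, ¬ Close A (jv N P) τ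

/-! ### lattices -/

variable {N} in
/-- `u` has rational `q`-expansion. -/
def IsRat (u : FN N) : Prop := ∀ σ : GQ, galF N σ u = u

/-- **LAT** : an echelon basis of rational, `ℓ`-integral functions. -/
def LatStatement (ℓ : ℕ) : Prop :=
  ∀ B : Divisor Kb (FN N), (∀ σ : GQ, aG N σ • B = B) →
    (∀ Z, 0 < B Z → Z = oo N ∨ ∃ a, IsIntegral (Rl ℓ) a ∧ jv N Z = some a) →
    ∃ (d : ℕ) (h : Fin d → FN N) (pos : Fin d → ℤ),
      (∀ i, IsRat (h i)) ∧ (∀ i, h i ∈ Fermat.Agent.RL.LSpace B) ∧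
      (∀ i n, ∃ r : Rl ℓ, (h i).1.coeff n = algebraMap (Rl ℓ) Kb r) ∧
      (∀ i j, (h i).1.coeff (pos j) = if i = j then 1 else 0) ∧
      ∀ u ∈ Fermat.Agent.RL.LSpace B, ∃ c : Fin d → Kb, u = ∑ i, algebraMap Kb (FN N) (c i) * h i

/-- **NORM** : equivariant primitive normalisation. -/
def NormStatement : Prop :=
  ∀ (ℓ : ℕ) [Fact ℓ.Prime] (Y : Type) [Finite Y] [MulAction GQ Y] (_ : Smooth Y) (d : ℕ)
    (β : Y → Fin d → Kb), (∀ (σ : GQ) y i, β (σ • y) i = σ (β y i)) → (∀ y, ∃ i, β y i ≠ 0) →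
    ∃ μ : Y → Kb, (∀ (σ : GQ) y, μ (σ • y) = σ (μ y)) ∧ (∀ y, μ y ≠ 0) ∧
      ∀ A : ValuationSubring Kb, A.LiesOverPrime ℓ → ∀ y,
        (∀ i, μ y * β y i ∈ A) ∧ ∃ i, μ y * β y i ∉ A.nonunits

/-- **PCH** : a monic integral polynomial whose roots are far from `T` at all primes over `ℓ`. -/
def PchStatement : Prop :=
  ∀ (ℓ : ℕ) [Fact ℓ.Prime] (T : Finset Kb), ∃ P : Polynomial ℤ, P.Monic ∧ 0 < P.natDegree ∧
    ∀ A : ValuationSubring Kb, A.LiesOverPrime ℓ → ∀ ρ : Kb, Polynomial.aeval ρ P = 0 →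
      ∀ τ ∈ T, ¬ Close A (some ρ) (some τ)

end Fermat.Agent.S19
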